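import Mathlib

/-!
# S16 / GAUSS / Diag (one worker; statement FROZEN by helper12)

Diagonalisation of a symmetric matrix by congruence over a field of characteristic `≠ 2`:
there are an invertible `P` and a vector `D` with `Pᵀ * M * P = diagonal D`.

Proof idea.  Mathlib: `LinearMap.BilinForm.exists_orthogonal_basis` (a symmetric bilinear form on
a finite-dimensional space over a field with `Invertible (2 : K)` has an orthogonal basis
`v : Basis (Fin (finrank K V)) K V`, `B.iIsOrtho v`) applied to `Matrix.toBilin' M` on `Fin n → K`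
(`finrank = n`: reindex the basis by `finCongr`/`Basis.reindex`), `P := ` the matrix with columns
`v i` (`Basis.toMatrix (Pi.basisFun K (Fin n)) v`, invertible: `Basis.invertibleToMatrix` /
`Basis.toMatrix_mul_toMatrix_flip`), and `(Pᵀ * M * P) i j = B (v i) (v j)` (`Matrix.toBilin'_apply'`,
`BilinForm.toMatrix_mul_basis_toMatrix`-style lemmas).  Alternatively
`QuadraticForm.equivalent_weightedSumSquares`, or a direct induction on `n`.
-/

set_option autoImplicit false

namespace Fermat.Agent.S16.Gauss

open Matrix

theorem exists_diag {K : Type*} [Field K] (h2 : (2 : K) ≠ 0) {n : ℕ}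
    (M : Matrix (Fin n) (Fin n) K) (hM : M.IsSymm) :
    ∃ (P : Matrix (Fin n) (Fin n) K) (D : Fin n → K),
      P.det ≠ 0 ∧ Pᵀ * M * P = Matrix.diagonal D := by
  have : Invertible (2 : K) := invertibleOfNonzero h2
  have hB : (Matrix.toBilin' M).IsSymm := Matrix.isSymm_toBilin'_iff_isSymm.mpr hM
  obtain ⟨v, hv⟩ := LinearMap.BilinForm.exists_orthogonal_basis
    (LinearMap.BilinForm.isSymm_iff.mp hB)
  have hn : Module.finrank K (Fin n → K) = n := Module.finrank_fin_fun K
  let w : Module.Basis (Fin n) K (Fin n → K) := v.reindex (finCongr hn)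
  have hw : ∀ i j : Fin n, i ≠ j → Matrix.toBilin' M (w i) (w j) = 0 := by
    intro i j hij
    simp only [w, Module.Basis.reindex_apply]
    apply hv
    intro h
    exact hij ((finCongr hn).symm.injective h)
  let P : Matrix (Fin n) (Fin n) K := (Pi.basisFun K (Fin n)).toMatrix w
  refine ⟨P, fun i => Matrix.toBilin' M (w i) (w i), ?_, ?_⟩
  · have : Invertible P := Module.Basis.invertibleToMatrix _ _
    exact (Matrix.isUnit_det_of_invertible P).ne_zero
  · ext i j
    have key : (Pᵀ * M * P) i j = Matrix.toBilin' M (w i) (w j) := by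
      rw [Matrix.toBilin'_apply, Matrix.mul_apply]
      simp only [Matrix.mul_apply, Matrix.transpose_apply, P, Module.Basis.toMatrix_apply,
        Pi.basisFun_repr, Finset.sum_mul]
      rw [Finset.sum_comm]
    rw [key]
    by_cases hij : i = j
    · subst hij
      simp
    · rw [Matrix.diagonal_apply_ne _ hij]
      exact hw i j hij

end Fermat.Agent.S16.Gauss
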