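import Mathlib

/-!
# S16 / GAUSS / OneDim (one worker; statement FROZEN by helper12)

One-dimensional quadratic Gauss sums over `𝔽_d = ZMod d` (`d` an odd prime), `ψ = ZMod.stdAddChar`:
if `D₀ D₁ D₂ D₃ ≠ 0` and their product is a square then `∏ᵢ ∑_{t} ψ(Dᵢ t²) = d²`.

Proof.  Let `χ := quadraticChar (ZMod d)` (values in `ℤ`, cast to `ℂ`) and
`S(α) := ∑ t, ψ (α * t ^ 2)`.  The number of square roots of `s` is `χ s + 1`
(`quadraticChar_card_sqrts`), so `S(α) = ∑ s, (1 + χ s) ψ(α s)`; for `α ≠ 0`, `∑ s, ψ (α s) = 0`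
(`ψ` is primitive: `ZMod.isPrimitive_stdAddChar`, `AddChar.sum_eq_zero_of_ne_one` /
`AddChar.sum_mulShift`) and `∑ s, χ s * ψ (α s) = χ α * τ` with
`τ := gaussSum χ' ψ = ∑ s, χ s * ψ s` (substitute `s ↦ α⁻¹ s`; `χ α⁻¹ = χ α`; or Mathlib's
`gaussSum_mulShift`), where `χ' = (quadraticChar (ZMod d)).ringHomComp (Int.castRingHom ℂ)`.
Hence `S(α) = χ α * τ` and `∏ᵢ S(Dᵢ) = χ(∏ Dᵢ) τ⁴ = τ⁴` (`quadraticChar_one_iff_isSquare`), and
`τ² = χ(-1) * d` (`gaussSum_sq`, needs `χ'` nontrivial and quadratic; `ZMod.card`), so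
`τ⁴ = d²`.  Files: Mathlib/NumberTheory/GaussSum.lean,
Mathlib/NumberTheory/LegendreSymbol/QuadraticChar/{Basic,GaussSum}.lean,
Mathlib/Analysis/Fourier/ZMod.lean or Mathlib/NumberTheory/LegendreSymbol/AddCharacter.lean
(`ZMod.stdAddChar`).
-/

set_option autoImplicit false

namespace Fermat.Agent.S16.Gauss

section Aux

variable (d : ℕ) [Fact d.Prime]

/-- The quadratic character of `ZMod d` with values in `ℂ`. -/
noncomputable def onedim_aux_chi : MulChar (ZMod d) ℂ :=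
  (quadraticChar (ZMod d)).ringHomComp (Int.castRingHom ℂ)

theorem onedim_aux_chi_apply (a : ZMod d) :
    onedim_aux_chi d a = ((quadraticChar (ZMod d) a : ℤ) : ℂ) := rfl

theorem onedim_aux_ringChar (hd2 : d ≠ 2) : ringChar (ZMod d) ≠ 2 := by
  rw [ZMod.ringChar_zmod_n]
  exact hd2

theorem onedim_aux_chi_sq {a : ZMod d} (ha : a ≠ 0) : onedim_aux_chi d a ^ 2 = 1 := by
  rw [onedim_aux_chi_apply]
  have h := quadraticChar_sq_one ha
  exact_mod_cast h

theorem onedim_aux_chi_ne_one (hd2 : d ≠ 2) : onedim_aux_chi d ≠ 1 := by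
  obtain ⟨a, ha⟩ := quadraticChar_exists_neg_one' (onedim_aux_ringChar d hd2)
  refine MulChar.ne_one_iff.mpr ⟨a, ?_⟩
  rw [onedim_aux_chi_apply, ha]
  norm_num

theorem onedim_aux_chi_isQuadratic : (onedim_aux_chi d).IsQuadratic :=
  (quadraticChar_isQuadratic (ZMod d)).comp _

/-- The square of the quadratic Gauss sum. -/
theorem onedim_aux_gaussSum_sq (hd2 : d ≠ 2) :
    gaussSum (onedim_aux_chi d) ZMod.stdAddChar ^ 2 = onedim_aux_chi d (-1) * (d : ℂ) := by
  rw [gaussSum_sq (onedim_aux_chi_ne_one d hd2) (onedim_aux_chi_isQuadratic d)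
    (ZMod.isPrimitive_stdAddChar d), ZMod.card]

/-- The fourth power of the quadratic Gauss sum. -/
theorem onedim_aux_gaussSum_pow_four (hd2 : d ≠ 2) :
    gaussSum (onedim_aux_chi d) ZMod.stdAddChar ^ 4 = (d : ℂ) ^ 2 := by
  have h1 : (-1 : ZMod d) ≠ 0 := neg_ne_zero.mpr one_ne_zero
  have h2 := onedim_aux_chi_sq d h1
  calc gaussSum (onedim_aux_chi d) ZMod.stdAddChar ^ 4
      = (gaussSum (onedim_aux_chi d) ZMod.stdAddChar ^ 2) ^ 2 := by ring
    _ = (onedim_aux_chi d (-1) * (d : ℂ)) ^ 2 := by rw [onedim_aux_gaussSum_sq d hd2]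
    _ = onedim_aux_chi d (-1) ^ 2 * (d : ℂ) ^ 2 := by ring
    _ = (d : ℂ) ^ 2 := by rw [h2, one_mul]

/-- The sum of a function of `t ^ 2` in terms of the quadratic character. -/
theorem onedim_aux_sum_sq (hd2 : d ≠ 2) (f : ZMod d → ℂ) :
    ∑ t : ZMod d, f (t ^ 2) = ∑ s : ZMod d, (onedim_aux_chi d s + 1) * f s := by
  classical
  rw [← Finset.sum_fiberwise Finset.univ (fun t : ZMod d => t ^ 2) (fun t => f (t ^ 2))]
  refine Finset.sum_congr rfl fun s _ => ?_
  have h1 : ∀ t ∈ Finset.univ.filter (fun t : ZMod d => t ^ 2 = s), f (t ^ 2) = f s := by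
    intro t ht
    rw [(Finset.mem_filter.mp ht).2]
  rw [Finset.sum_congr rfl h1, Finset.sum_const, nsmul_eq_mul]
  congr 1
  have h2 := quadraticChar_card_sqrts (onedim_aux_ringChar d hd2) s
  have h3 : ({x : ZMod d | x ^ 2 = s} : Set (ZMod d)).toFinset =
      Finset.univ.filter (fun t : ZMod d => t ^ 2 = s) := by
    ext x
    simp
  rw [h3] at h2
  rw [onedim_aux_chi_apply]
  exact_mod_cast h2

/-- The one-dimensional quadratic Gauss sum. -/
theorem onedim_aux_sum_quad (hd2 : d ≠ 2) {a : ZMod d} (ha : a ≠ 0) :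
    ∑ t : ZMod d, ZMod.stdAddChar (a * t ^ 2) =
      onedim_aux_chi d a * gaussSum (onedim_aux_chi d) ZMod.stdAddChar := by
  classical
  rw [onedim_aux_sum_sq d hd2 (fun s => ZMod.stdAddChar (a * s))]
  simp only [add_mul, one_mul, Finset.sum_add_distrib]
  have hprim := ZMod.isPrimitive_stdAddChar d
  have h0 : ∑ s : ZMod d, (ZMod.stdAddChar (a * s) : ℂ) = 0 := by
    have h := AddChar.sum_mulShift (R' := ℂ) a hprim
    rw [if_neg ha, Nat.cast_zero] at h
    calc ∑ s : ZMod d, (ZMod.stdAddChar (a * s) : ℂ)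
        = ∑ s : ZMod d, ZMod.stdAddChar (s * a) :=
          Finset.sum_congr rfl fun s _ => by rw [mul_comm]
      _ = 0 := h
  rw [h0, add_zero]
  -- the twisted sum
  have hu : IsUnit a := ha.isUnit
  obtain ⟨u, rfl⟩ := hu
  have h1 := gaussSum_mulShift (onedim_aux_chi d) (ZMod.stdAddChar (N := d)) u
  have h2 : ∑ s : ZMod d, onedim_aux_chi d s * ZMod.stdAddChar ((u : ZMod d) * s) =
      gaussSum (onedim_aux_chi d) (AddChar.mulShift ZMod.stdAddChar (u : ZMod d)) := by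
    simp only [gaussSum, AddChar.mulShift_apply]
  rw [h2, ← h1, ← mul_assoc, ← pow_two, onedim_aux_chi_sq d ha, one_mul]

end Aux

theorem prod_quad_gauss (d : ℕ) [Fact d.Prime] (hd2 : d ≠ 2) (D : Fin 4 → ZMod d)
    (hD : ∀ i, D i ≠ 0) (hsq : IsSquare (∏ i, D i)) :
    ∏ i : Fin 4, ∑ t : ZMod d, ZMod.stdAddChar (D i * t ^ 2) = (d : ℂ) ^ 2 := by
  have h1 : ∀ i ∈ (Finset.univ : Finset (Fin 4)),
      ∑ t : ZMod d, ZMod.stdAddChar (D i * t ^ 2) =
        onedim_aux_chi d (D i) * gaussSum (onedim_aux_chi d) ZMod.stdAddChar :=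
    fun i _ => onedim_aux_sum_quad d hd2 (hD i)
  rw [Finset.prod_congr rfl h1, Finset.prod_mul_distrib, Finset.prod_const, Finset.card_univ,
    Fintype.card_fin, onedim_aux_gaussSum_pow_four d hd2, ← map_prod]
  have hne : ∏ i, D i ≠ 0 := Finset.prod_ne_zero_iff.mpr fun i _ => hD i
  have h2 : onedim_aux_chi d (∏ i, D i) = 1 := by
    rw [onedim_aux_chi_apply, (quadraticChar_one_iff_isSquare hne).mpr hsq]
    norm_num
  rw [h2, one_mul]

end Fermat.Agent.S16.Gauss
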