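import Mathlib
import Fermat.Agent.S16.Gauss.OneDim
import Fermat.Agent.S16.Gauss.Diag

/-!
# S16 / GAUSS / GZero (one worker; statement FROZEN by helper12)

The pure quaternary Gauss sum: `M` symmetric `4 × 4` over `ZMod d` (`d` an odd prime) with
`det M` a nonzero square: `∑_{g ∈ 𝔽_d⁴} ψ(gᵀ M g) = d²`.

Proof from `exists_diag` and `prod_quad_gauss` (use them as black boxes).
`exists_diag` (`(2 : ZMod d) ≠ 0` as `d` is an odd prime) gives `P`, `D` with `det P ≠ 0`,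
`Pᵀ M P = diagonal D`.  `h ↦ P *ᵥ h` is a bijection of `Fin 4 → ZMod d`
(`Matrix.mulVec_injective_iff_isUnit`/`Matrix.toLin'` with `isUnit_iff_ne_zero`, `Finite.injective_iff_bijective`; then
`Fintype.sum_bijective` / `Equiv.sum_comp`), and
`(P *ᵥ h) ⬝ᵥ M *ᵥ (P *ᵥ h) = h ⬝ᵥ (Pᵀ * M * P) *ᵥ h = ∑ i, D i * h i ^ 2`
(`Matrix.dotProduct_mulVec`, `vecMul_mulVec`, `mulVec_mulVec`, `mulVec_diagonal`).
`ψ (∑ i, D i * h i ^ 2) = ∏ i, ψ (D i * h i ^ 2)` (`AddChar.map_sum_eq_prod`), and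
`∑ h : Fin 4 → ZMod d, ∏ i, f i (h i) = ∏ i, ∑ t, f i t` (`Finset.prod_univ_sum` with
`Fintype.piFinset_univ`, or `Fintype.prod_sum`).  Finally `∏ i, D i = det (diagonal D)
= det P ^ 2 * det M` (`det_mul`, `det_transpose`, `det_diagonal`) is a nonzero square, so every
`D i ≠ 0` (`Finset.prod_ne_zero_iff`) and `prod_quad_gauss` applies.
-/

set_option autoImplicit false

namespace Fermat.Agent.S16.Gauss

open Matrix

/-- An additive character turns finite sums into finite products. -/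
theorem gzero_aux_map_sum {A R ι : Type*} [AddCommMonoid A] [CommMonoid R] (ψ : AddChar A R)
    (f : ι → A) (s : Finset ι) : ψ (∑ i ∈ s, f i) = ∏ i ∈ s, ψ (f i) := by
  classical
  induction s using Finset.induction_on with
  | empty => simp
  | insert a s ha ih =>
    rw [Finset.sum_insert ha, Finset.prod_insert ha, AddChar.map_add_eq_mul, ih]

theorem sum_quad_eq (d : ℕ) [Fact d.Prime] (hd2 : d ≠ 2)
    (M : Matrix (Fin 4) (Fin 4) (ZMod d)) (hM : M.IsSymm) (hdet0 : M.det ≠ 0)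
    (hdet : IsSquare M.det) :
    ∑ g : Fin 4 → ZMod d, ZMod.stdAddChar (g ⬝ᵥ M *ᵥ g) = (d : ℂ) ^ 2 := by
  have hdp : d.Prime := Fact.out
  have h2 : (2 : ZMod d) ≠ 0 := by
    intro h
    have h' : ((2 : ℕ) : ZMod d) = 0 := by exact_mod_cast h
    rw [ZMod.natCast_eq_zero_iff] at h'
    exact hd2 ((Nat.prime_dvd_prime_iff_eq hdp Nat.prime_two).mp h')
  obtain ⟨P, D, hP, hPD⟩ := exists_diag h2 M hM
  -- the diagonal entries: their product is `det P ^ 2 * det M`, a nonzero square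
  have hprod : ∏ i, D i = P.det * M.det * P.det := by
    rw [← Matrix.det_diagonal, ← hPD, Matrix.det_mul, Matrix.det_mul, Matrix.det_transpose]
  have hD : ∀ i, D i ≠ 0 := by
    have h0 : ∏ i, D i ≠ 0 := by
      rw [hprod]
      exact mul_ne_zero (mul_ne_zero hP hdet0) hP
    intro i
    exact (Finset.prod_ne_zero_iff.mp h0) i (Finset.mem_univ i)
  have hsq : IsSquare (∏ i, D i) := by
    obtain ⟨r, hr⟩ := hdet
    exact ⟨P.det * r, by rw [hprod, hr]; ring⟩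
  -- the change of variables `g = P *ᵥ h`
  have hbij : Function.Bijective (fun h : Fin 4 → ZMod d => P *ᵥ h) := by
    have hinj : Function.Injective (fun h : Fin 4 → ZMod d => P *ᵥ h) :=
      Matrix.mulVec_injective_of_isUnit
        ((Matrix.isUnit_iff_isUnit_det P).mpr (isUnit_iff_ne_zero.mpr hP))
    exact Finite.injective_iff_bijective.mp hinj
  have key : ∀ h : Fin 4 → ZMod d, (P *ᵥ h) ⬝ᵥ M *ᵥ (P *ᵥ h) = ∑ i, D i * h i ^ 2 := by
    intro h
    calc (P *ᵥ h) ⬝ᵥ M *ᵥ (P *ᵥ h) = h ⬝ᵥ Pᵀ *ᵥ (M *ᵥ (P *ᵥ h)) := by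
          rw [Matrix.dotProduct_mulVec h Pᵀ, Matrix.vecMul_transpose]
      _ = h ⬝ᵥ (Pᵀ * M * P) *ᵥ h := by rw [Matrix.mulVec_mulVec, Matrix.mulVec_mulVec]
      _ = h ⬝ᵥ (Matrix.diagonal D) *ᵥ h := by rw [hPD]
      _ = ∑ i, D i * h i ^ 2 := by
          unfold dotProduct
          refine Finset.sum_congr rfl fun i _ => ?_
          rw [Matrix.mulVec_diagonal]
          ring
  calc ∑ g : Fin 4 → ZMod d, ZMod.stdAddChar (g ⬝ᵥ M *ᵥ g)
      = ∑ h : Fin 4 → ZMod d, ZMod.stdAddChar ((P *ᵥ h) ⬝ᵥ M *ᵥ (P *ᵥ h)) :=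
        (Fintype.sum_bijective _ hbij _ _ (fun _ => rfl)).symm
    _ = ∑ h : Fin 4 → ZMod d, ∏ i, ZMod.stdAddChar (D i * h i ^ 2) := by
        refine Finset.sum_congr rfl fun h _ => ?_
        rw [key, gzero_aux_map_sum]
    _ = ∏ i : Fin 4, ∑ t : ZMod d, ZMod.stdAddChar (D i * t ^ 2) :=
        (Fintype.prod_sum (fun (i : Fin 4) (t : ZMod d) => ZMod.stdAddChar (D i * t ^ 2))).symm
    _ = (d : ℂ) ^ 2 := prod_quad_gauss d hd2 D hD hsq

end Fermat.Agent.S16.Gauss
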