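import Mathlib
import Fermat.Agent.S16.Gauss.GZero

/-!
# S16 / GAUSS / ZModForm (one worker; statement FROZEN by helper12 — interface of block GAUSS)

Completing the square.  Over `𝔽_d = ZMod d` (`d` an odd prime), `A` symmetric, `A * A' = c • 1`
(`c ≠ 0`), `det A` a square, `b ≠ 0`, `ψ = ZMod.stdAddChar`:
  `∑_{g ∈ 𝔽_d⁴} ψ(b · ½ gᵀAg + yᵀg) = ψ(-b⁻¹c⁻¹ · ½ yᵀA'y) · d²`.

Proof from `sum_quad_eq` (black box).  Put `Qf g := 2⁻¹ * (g ⬝ᵥ A *ᵥ g)` and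
`u := (b⁻¹ * c⁻¹) • (A' *ᵥ y)`.  Then (A symmetric, `2 * 2⁻¹ = 1` in `ZMod d`)
`Qf (g + u) = Qf g + g ⬝ᵥ A *ᵥ u + Qf u`, `g ⬝ᵥ A *ᵥ u = b⁻¹ * (g ⬝ᵥ y)` (as `A * A' = c • 1`), and
`Qf u = b⁻¹ ^ 2 * c⁻¹ * (2⁻¹ * (y ⬝ᵥ A' *ᵥ y))` (uses `(A' *ᵥ y) ⬝ᵥ (A *ᵥ (A' *ᵥ y))
= c * ((A' *ᵥ y) ⬝ᵥ y) = c * (y ⬝ᵥ A' *ᵥ y)`; no symmetry of `A'` needed).  Hence
`b * Qf g + y ⬝ᵥ g = b * Qf (g + u) - b⁻¹ * c⁻¹ * (2⁻¹ * (y ⬝ᵥ A' *ᵥ y))`; sum over `g`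
(`AddChar.map_add_eq_mul`, `Finset.mul_sum`, shift `g ↦ g + u`: `Equiv.addRight`/`Fintype.sum_equiv`)
and apply `sum_quad_eq` to `M := (b * 2⁻¹) • A` (symmetric; `det M = (b * 2⁻¹) ^ 4 * det A`
(`Matrix.det_smul`, `Fintype.card_fin`) is a nonzero square: `det A ≠ 0` because
`det A * det A' = c ^ 4 ≠ 0`).
-/

set_option autoImplicit false

namespace Fermat.Agent.S16.Gauss

open Matrix

theorem gauss_zmod (d : ℕ) [Fact d.Prime] (hd2 : d ≠ 2)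
    (A A' : Matrix (Fin 4) (Fin 4) (ZMod d)) (hA : A.IsSymm) (c : ZMod d) (hc : c ≠ 0)
    (hAA' : A * A' = c • (1 : Matrix (Fin 4) (Fin 4) (ZMod d))) (hdet : IsSquare A.det)
    (b : ZMod d) (hb : b ≠ 0) (y : Fin 4 → ZMod d) :
    ∑ g : Fin 4 → ZMod d, ZMod.stdAddChar (b * (2⁻¹ * (g ⬝ᵥ A *ᵥ g)) + y ⬝ᵥ g) =
      ZMod.stdAddChar (-(b⁻¹ * c⁻¹ * (2⁻¹ * (y ⬝ᵥ A' *ᵥ y)))) * (d : ℂ) ^ 2 := by
  have hp : d.Prime := Fact.out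
  have h2 : (2 : ZMod d) ≠ 0 := by
    intro h
    have h' : ((2 : ℕ) : ZMod d) = 0 := by exact_mod_cast h
    rw [ZMod.natCast_eq_zero_iff] at h'
    exact hd2 ((Nat.prime_dvd_prime_iff_eq hp Nat.prime_two).1 h')
  -- the shift vector and the matrix of the pure quadratic form
  obtain ⟨u, hu⟩ : ∃ u : Fin 4 → ZMod d, u = (b⁻¹ * c⁻¹) • (A' *ᵥ y) := ⟨_, rfl⟩
  obtain ⟨M, hMdef⟩ : ∃ M : Matrix (Fin 4) (Fin 4) (ZMod d), M = (b * 2⁻¹) • A := ⟨_, rfl⟩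
  have hAu : A *ᵥ u = b⁻¹ • y := by
    rw [hu, Matrix.mulVec_smul, Matrix.mulVec_mulVec, hAA', Matrix.smul_mulVec,
      Matrix.one_mulVec, smul_smul]
    congr 1
    field_simp
  have hsymm : ∀ v w : Fin 4 → ZMod d, v ⬝ᵥ A *ᵥ w = (A *ᵥ v) ⬝ᵥ w := by
    intro v w
    rw [Matrix.dotProduct_mulVec, ← Matrix.mulVec_transpose, hA.eq]
  have key : ∀ g : Fin 4 → ZMod d,
      b * (2⁻¹ * (g ⬝ᵥ A *ᵥ g)) + y ⬝ᵥ g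
        = (g + u) ⬝ᵥ M *ᵥ (g + u) + (-(b⁻¹ * c⁻¹ * (2⁻¹ * (y ⬝ᵥ A' *ᵥ y)))) := by
    intro g
    have e1 : g ⬝ᵥ A *ᵥ u = b⁻¹ * (y ⬝ᵥ g) := by
      rw [hAu, dotProduct_smul, smul_eq_mul, dotProduct_comm]
    have e2 : u ⬝ᵥ A *ᵥ g = b⁻¹ * (y ⬝ᵥ g) := by
      rw [hsymm, hAu, smul_dotProduct, smul_eq_mul]
    have e3 : u ⬝ᵥ A *ᵥ u = b⁻¹ * (b⁻¹ * c⁻¹) * (y ⬝ᵥ A' *ᵥ y) := by
      rw [hAu, dotProduct_smul, smul_eq_mul, hu, smul_dotProduct, smul_eq_mul, dotProduct_comm]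
      ring
    rw [hMdef, Matrix.smul_mulVec, dotProduct_smul, smul_eq_mul, Matrix.mulVec_add,
      add_dotProduct, dotProduct_add, dotProduct_add, e1, e2, e3]
    field_simp
    ring
  -- the matrix `M` satisfies the hypotheses of `sum_quad_eq`
  have hMsymm : M.IsSymm := by
    rw [hMdef]
    exact hA.smul _
  have hdetA : A.det ≠ 0 := by
    intro h0
    have h1 : (A * A').det = c ^ 4 := by
      rw [hAA', Matrix.det_smul, Matrix.det_one, mul_one, Fintype.card_fin]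
    rw [Matrix.det_mul, h0, zero_mul] at h1
    exact pow_ne_zero 4 hc h1.symm
  have hdetM : M.det = (b * 2⁻¹) ^ 4 * A.det := by
    rw [hMdef, Matrix.det_smul, Fintype.card_fin]
  have hdetM0 : M.det ≠ 0 := by
    rw [hdetM]
    exact mul_ne_zero (pow_ne_zero 4 (mul_ne_zero hb (inv_ne_zero h2))) hdetA
  have hdetMsq : IsSquare M.det := by
    rw [hdetM]
    refine IsSquare.mul ⟨(b * 2⁻¹) ^ 2, by ring⟩ hdet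
  have hsum := sum_quad_eq d hd2 M hMsymm hdetM0 hdetMsq
  -- summation
  calc ∑ g : Fin 4 → ZMod d, ZMod.stdAddChar (b * (2⁻¹ * (g ⬝ᵥ A *ᵥ g)) + y ⬝ᵥ g)
      = ∑ g : Fin 4 → ZMod d, ZMod.stdAddChar ((g + u) ⬝ᵥ M *ᵥ (g + u)) *
          ZMod.stdAddChar (-(b⁻¹ * c⁻¹ * (2⁻¹ * (y ⬝ᵥ A' *ᵥ y)))) := by
        refine Finset.sum_congr rfl fun g _ => ?_
        rw [key g, AddChar.map_add_eq_mul]
    _ = (∑ g : Fin 4 → ZMod d, ZMod.stdAddChar ((g + u) ⬝ᵥ M *ᵥ (g + u))) *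
          ZMod.stdAddChar (-(b⁻¹ * c⁻¹ * (2⁻¹ * (y ⬝ᵥ A' *ᵥ y)))) := by
        rw [Finset.sum_mul]
    _ = (∑ g : Fin 4 → ZMod d, ZMod.stdAddChar (g ⬝ᵥ M *ᵥ g)) *
          ZMod.stdAddChar (-(b⁻¹ * c⁻¹ * (2⁻¹ * (y ⬝ᵥ A' *ᵥ y)))) := by
        congr 1
        exact Equiv.sum_comp (Equiv.addRight u)
          (fun g : Fin 4 → ZMod d => (ZMod.stdAddChar (g ⬝ᵥ M *ᵥ g) : ℂ))
    _ = ZMod.stdAddChar (-(b⁻¹ * c⁻¹ * (2⁻¹ * (y ⬝ᵥ A' *ᵥ y)))) * (d : ℂ) ^ 2 := by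
        rw [hsum, mul_comm]

end Fermat.Agent.S16.Gauss
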