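import Mathlib
import Fermat.Agent.S16.Gauss.ZModForm

/-!
# S16 / GAUSS / IntForm (one worker; statement FROZEN by helper12 — interface of block GAUSS)

The integer form of the quaternary Gauss sum, for the Hecke trick:
`A, A'` integer matrices, `A` symmetric, `A * A' = p • 1`, `det A = p²`; `Q, Q'` integer-valued
with `2 Q x = xᵀ A x`, `2 Q' y = yᵀ A' y`; `d` an odd prime, `b p m ≡ -1 mod d`; `lift` any section
of the cast `ℤ → ZMod d`.  Then
  `∑_{g ∈ (ℤ/d)⁴} e((b Q(lift g) + yᵀ(lift g)) / d) = e(m Q'(y) / d) · d²`,  `e(t) = exp(2πit)`.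

Proof from `gauss_zmod` (black box) with `A.map (Int.cast)`, `A'.map (Int.cast)`, `c := (p : ZMod d)`,
`b := (b : ZMod d)`, `y := fun i => (y i : ZMod d)`.
* `Complex.exp (2 * π * I * (k : ℤ) / d) = ZMod.stdAddChar ((k : ℤ) : ZMod d)`
  (`ZMod.stdAddChar_coe` / `ZMod.stdAddChar_apply` + `ZMod.toCircle_intCast`; check the exact
  normal form `2 * π * I * k / d` by `simp`/`congr 1; ring`).
* casts: `((Q x : ℤ) : ZMod d) = 2⁻¹ * ((x ⬝ᵥ A *ᵥ x : ℤ) : ZMod d)` from `hQ` (`(2 : ZMod d) ≠ 0`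
  since `d` is an odd prime), `Int.cast` commutes with `dotProduct`, `mulVec`
  (`Int.cast_sum`, `Int.cast_mul`, `RingHom.map_dotProduct`, `RingHom.map_mulVec`), and
  `((lift t : ℤ) : ZMod d) = t`.
* `hm` gives `(b : ZMod d) * p * m = -1` (`(ZMod.intCast_eq_intCast_iff _ _ _).mpr`), so `b, p ≠ 0`
  in `ZMod d` and `(m : ZMod d) = -(b⁻¹ * p⁻¹)`.
* `IsSquare (A.map Int.cast).det`: `det = (p : ZMod d) ^ 2` (`Int.cast_det` / `RingHom.map_det`).
* `(A.map Int.cast) * (A'.map Int.cast) = (p : ZMod d) • 1` (`Matrix.map_mul`, `Matrix.map_smul`…).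
-/

set_option autoImplicit false

namespace Fermat.Agent.S16.Gauss

open Matrix

theorem intform_aux_two_ne_zero {d : ℕ} [Fact d.Prime] (hd2 : d ≠ 2) : (2 : ZMod d) ≠ 0 := by
  have hdp : d.Prime := Fact.out
  intro h
  have h' : ((2 : ℕ) : ZMod d) = 0 := by exact_mod_cast h
  rw [ZMod.natCast_eq_zero_iff] at h'
  rcases (Nat.dvd_prime Nat.prime_two).mp h' with h1 | h2
  · exact hdp.ne_one h1
  · exact hd2 h2

theorem intform_aux_half {d : ℕ} [Fact d.Prime] (hd2 : d ≠ 2) {q s : ℤ} (h : 2 * q = s) :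
    (q : ZMod d) = 2⁻¹ * (s : ZMod d) := by
  have h2 : (2 : ZMod d) ≠ 0 := intform_aux_two_ne_zero hd2
  have h3 : (2 : ZMod d) * (q : ZMod d) = (s : ZMod d) := by
    rw [← h]
    push_cast
    rfl
  rw [← h3, ← mul_assoc, inv_mul_cancel₀ h2, one_mul]

theorem intform_aux_cast_quad (d : ℕ) (A : Matrix (Fin 4) (Fin 4) ℤ) (x y : Fin 4 → ℤ) :
    ((x ⬝ᵥ A *ᵥ y : ℤ) : ZMod d) =
      (fun i => (x i : ZMod d)) ⬝ᵥ
        ((Int.castRingHom (ZMod d)).mapMatrix A) *ᵥ (fun i => (y i : ZMod d)) := by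
  simp [dotProduct, mulVec, Matrix.map_apply]

theorem intform_aux_cast_dot (d : ℕ) (x y : Fin 4 → ℤ) :
    ((x ⬝ᵥ y : ℤ) : ZMod d) = (fun i => (x i : ZMod d)) ⬝ᵥ (fun i => (y i : ZMod d)) := by
  simp [dotProduct]

theorem gauss_int (p : ℤ) (A A' : Matrix (Fin 4) (Fin 4) ℤ) (hA : A.IsSymm)
    (hAA' : A * A' = p • (1 : Matrix (Fin 4) (Fin 4) ℤ)) (hdet : A.det = p ^ 2)
    (Q Q' : (Fin 4 → ℤ) → ℤ) (hQ : ∀ x, 2 * Q x = x ⬝ᵥ A *ᵥ x)
    (hQ' : ∀ y, 2 * Q' y = y ⬝ᵥ A' *ᵥ y)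
    (d : ℕ) [Fact d.Prime] (hd2 : d ≠ 2) (b m : ℤ) (hm : b * p * m ≡ -1 [ZMOD d])
    (lift : ZMod d → ℤ) (hlift : ∀ t, ((lift t : ℤ) : ZMod d) = t) (y : Fin 4 → ℤ) :
    ∑ g : Fin 4 → ZMod d,
        Complex.exp (2 * Real.pi * Complex.I *
          ((b * Q (fun i => lift (g i)) + y ⬝ᵥ (fun i => lift (g i)) : ℤ) : ℂ) / d) =
      Complex.exp (2 * Real.pi * Complex.I * ((m * Q' y : ℤ) : ℂ) / d) * (d : ℂ) ^ 2 := by
  have hm' : (b : ZMod d) * (p : ZMod d) * (m : ZMod d) = -1 := by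
    have h := (ZMod.intCast_eq_intCast_iff (b * p * m) (-1) d).mpr hm
    push_cast at h
    exact h
  have hb : (b : ZMod d) ≠ 0 := by
    intro h
    rw [h, zero_mul, zero_mul] at hm'
    exact one_ne_zero (neg_eq_zero.mp hm'.symm)
  have hp : (p : ZMod d) ≠ 0 := by
    intro h
    rw [h, mul_zero, zero_mul] at hm'
    exact one_ne_zero (neg_eq_zero.mp hm'.symm)
  have hmeq : (m : ZMod d) = -((b : ZMod d)⁻¹ * (p : ZMod d)⁻¹) := by
    field_simp
    linear_combination hm'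
  have hsymm : ((Int.castRingHom (ZMod d)).mapMatrix A).IsSymm := hA.map _
  have hmul : (Int.castRingHom (ZMod d)).mapMatrix A * (Int.castRingHom (ZMod d)).mapMatrix A' =
      (p : ZMod d) • (1 : Matrix (Fin 4) (Fin 4) (ZMod d)) := by
    have h := congrArg (Int.castRingHom (ZMod d)).mapMatrix hAA'
    rw [map_mul, map_zsmul, map_one] at h
    rw [h, Int.cast_smul_eq_zsmul]
  have hdetsq : IsSquare ((Int.castRingHom (ZMod d)).mapMatrix A).det := by
    refine ⟨(p : ZMod d), ?_⟩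
    rw [← RingHom.map_det, hdet]
    simp [pow_two]
  have hL : ∀ g : Fin 4 → ZMod d,
      Complex.exp (2 * Real.pi * Complex.I *
          ((b * Q (fun i => lift (g i)) + y ⬝ᵥ (fun i => lift (g i)) : ℤ) : ℂ) / d) =
        ZMod.stdAddChar ((b : ZMod d) *
          (2⁻¹ * (g ⬝ᵥ ((Int.castRingHom (ZMod d)).mapMatrix A) *ᵥ g)) +
            (fun i => (y i : ZMod d)) ⬝ᵥ g) := by
    intro g
    rw [← ZMod.stdAddChar_coe]
    congr 1
    have hx : (fun i => ((lift (g i) : ℤ) : ZMod d)) = g := funext fun i => hlift (g i)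
    rw [Int.cast_add, Int.cast_mul, intform_aux_half hd2 (hQ _), intform_aux_cast_quad,
      intform_aux_cast_dot, hx]
  rw [Finset.sum_congr rfl (fun g _ => hL g),
    gauss_zmod d hd2 _ _ hsymm _ hp hmul hdetsq _ hb (fun i => (y i : ZMod d))]
  congr 1
  rw [← ZMod.stdAddChar_coe]
  congr 1
  rw [Int.cast_mul, intform_aux_half hd2 (hQ' y), intform_aux_cast_quad, hmeq]
  ring

end Fermat.Agent.S16.Gauss
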