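import Mathlib
import Fermat.Agent.S16.HeckeTrick.Defs
import Fermat.Agent.S16.Gauss.IntForm

/-!
# S16 / GAUSS / Statement (helper12): `gauss_statement : TH.GaussStatement p A A'` (FROZEN shape, helper24) (the form consumed by the Hecke
trick, `Fermat/Agent/S16/HeckeTrick/Defs.lean`) from `gauss_int`.
-/

set_option autoImplicit false

namespace Fermat.Agent.S16.Gauss

open Matrix Complex
open scoped Real

/-- For a symmetric integer matrix with even diagonal, `xᵀ A x` is even. -/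
theorem even_quad_int (A : Matrix (Fin 4) (Fin 4) ℤ) (hA : A.IsSymm)
    (heven : ∀ i, Even (A i i)) (x : Fin 4 → ℤ) : Even (x ⬝ᵥ A *ᵥ x) := by
  have h10 : A 1 0 = A 0 1 := hA.apply 0 1
  have h20 : A 2 0 = A 0 2 := hA.apply 0 2
  have h30 : A 3 0 = A 0 3 := hA.apply 0 3
  have h21 : A 2 1 = A 1 2 := hA.apply 1 2
  have h31 : A 3 1 = A 1 3 := hA.apply 1 3
  have h32 : A 3 2 = A 2 3 := hA.apply 2 3
  obtain ⟨k0, hk0⟩ := heven 0
  obtain ⟨k1, hk1⟩ := heven 1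
  obtain ⟨k2, hk2⟩ := heven 2
  obtain ⟨k3, hk3⟩ := heven 3
  refine ⟨k0 * x 0 ^ 2 + k1 * x 1 ^ 2 + k2 * x 2 ^ 2 + k3 * x 3 ^ 2 + A 0 1 * x 0 * x 1
    + A 0 2 * x 0 * x 2 + A 0 3 * x 0 * x 3 + A 1 2 * x 1 * x 2 + A 1 3 * x 1 * x 3
    + A 2 3 * x 2 * x 3, ?_⟩
  simp only [dotProduct, mulVec, Fin.sum_univ_four]
  rw [h10, h20, h30, h21, h31, h32, hk0, hk1, hk2, hk3]
  ring

/-- `TH.quad` on integer vectors. -/
theorem quad_intCast (A : Matrix (Fin 4) (Fin 4) ℤ) (x : Fin 4 → ℤ) :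
    TH.quad A (fun i => (x i : ℝ)) = ((x ⬝ᵥ A *ᵥ x : ℤ) : ℝ) / 2 := by
  unfold TH.quad
  congr 1
  simp only [dotProduct, mulVec]
  push_cast
  refine Finset.sum_congr rfl fun i _ => ?_
  rw [Finset.mul_sum]
  refine Finset.sum_congr rfl fun j _ => ?_
  ring

theorem val_finEquiv (d : ℕ) [NeZero d] (k : Fin d) :
    ZMod.val (ZMod.finEquiv d k) = (k : ℕ) := by
  cases d with
  | zero => exact absurd rfl (NeZero.ne 0)
  | succ n => rfl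

/-- The Gauss-sum statement consumed by the Hecke trick. -/
theorem gauss_statement (p : ℕ) (A A' : Matrix (Fin 4) (Fin 4) ℤ) (hA : A.IsSymm)
    (hA' : A'.IsSymm) (hev : ∀ i, Even (A i i)) (hev' : ∀ i, Even (A' i i))
    (hAA' : A * A' = (p : ℤ) • (1 : Matrix (Fin 4) (Fin 4) ℤ)) (hdet : A.det = (p : ℤ) ^ 2) :
    Fermat.Agent.S16.TH.GaussStatement p A A' := by
  intro d hd hdp b c' hdvd y
  have : Fact d.Prime := ⟨hd⟩
  have : NeZero d := ⟨hd.ne_zero⟩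
  have hd2 : d ≠ 2 := by
    rintro rfl
    exact hdp (dvd_mul_right 2 p)
  have hQ : ∀ x : Fin 4 → ℤ, 2 * ((x ⬝ᵥ A *ᵥ x) / 2) = x ⬝ᵥ A *ᵥ x := fun x =>
    Int.two_mul_ediv_two_of_even (even_quad_int A hA hev x)
  have hQ' : ∀ x : Fin 4 → ℤ, 2 * ((x ⬝ᵥ A' *ᵥ x) / 2) = x ⬝ᵥ A' *ᵥ x := fun x =>
    Int.two_mul_ediv_two_of_even (even_quad_int A' hA' hev' x)
  have hm : b * (p : ℤ) * c' ≡ -1 [ZMOD d] := by
    rw [Int.modEq_iff_dvd]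
    have : (-1 : ℤ) - b * (p : ℤ) * c' = -(b * (p : ℤ) * c' + 1) := by ring
    rw [this]
    exact (dvd_neg).mpr hdvd
  have key := gauss_int (p : ℤ) A A' hA hAA' hdet (fun x => (x ⬝ᵥ A *ᵥ x) / 2)
    (fun x => (x ⬝ᵥ A' *ᵥ x) / 2) hQ hQ' d hd2 b c' hm
    (fun t => ((ZMod.val t : ℕ) : ℤ)) (fun t => by simp) y
  have hquad : ∀ x : Fin 4 → ℤ, (TH.quad A (fun i => (x i : ℝ)) : ℂ)
      = (((x ⬝ᵥ A *ᵥ x) / 2 : ℤ) : ℂ) := by
    intro x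
    have h' : ((x ⬝ᵥ A *ᵥ x : ℤ) : ℝ) = 2 * (((x ⬝ᵥ A *ᵥ x) / 2 : ℤ) : ℝ) := by
      exact_mod_cast (hQ x).symm
    have e : TH.quad A (fun i => (x i : ℝ)) = (((x ⬝ᵥ A *ᵥ x) / 2 : ℤ) : ℝ) := by
      rw [quad_intCast, h']
      ring
    rw [e]
    norm_cast
  have hquad' : ∀ x : Fin 4 → ℤ, (TH.quad A' (fun i => (x i : ℝ)) : ℂ)
      = (((x ⬝ᵥ A' *ᵥ x) / 2 : ℤ) : ℂ) := by
    intro x
    have h' : ((x ⬝ᵥ A' *ᵥ x : ℤ) : ℝ) = 2 * (((x ⬝ᵥ A' *ᵥ x) / 2 : ℤ) : ℝ) := by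
      exact_mod_cast (hQ' x).symm
    have e : TH.quad A' (fun i => (x i : ℝ)) = (((x ⬝ᵥ A' *ᵥ x) / 2 : ℤ) : ℝ) := by
      rw [quad_intCast, h']
      ring
    rw [e]
    norm_cast
  have hsum : ∑ g : Fin 4 → Fin d,
        cexp (2 * π * Complex.I * (((b : ℂ) * (TH.quad A (fun i => ((g i : ℕ) : ℝ)) : ℂ)
          + ∑ i, (y i : ℂ) * ((g i : ℕ) : ℂ)) / (d : ℂ))) =
      ∑ g : Fin 4 → ZMod d,
        Complex.exp (2 * Real.pi * Complex.I *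
          ((b * ((fun i => ((ZMod.val (g i) : ℕ) : ℤ)) ⬝ᵥ A *ᵥ (fun i => ((ZMod.val (g i) : ℕ) : ℤ)) / 2)
            + y ⬝ᵥ (fun i => ((ZMod.val (g i) : ℕ) : ℤ)) : ℤ) : ℂ) / d) := by
    refine Fintype.sum_equiv (Equiv.piCongrRight fun _ => (ZMod.finEquiv d).toEquiv) _ _ ?_
    intro g
    have hg : ∀ i, ZMod.val ((Equiv.piCongrRight fun _ => (ZMod.finEquiv d).toEquiv) g i)
        = (g i : ℕ) := fun i => val_finEquiv d (g i)
    simp only [hg]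
    have h1 := hquad (fun i => ((g i : ℕ) : ℤ))
    simp only [Int.cast_natCast] at h1
    rw [h1]
    congr 1
    simp only [dotProduct]
    push_cast
    ring
  rw [hsum, key, hquad' y]
  rw [mul_comm]
  congr 2
  push_cast
  ring

end Fermat.Agent.S16.Gauss
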