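import Fermat.Agent.S16.Gauss.ZModForm
import Fermat.Agent.S16.Gauss.IntForm
import Fermat.Agent.S16.Gauss.Statement

/-!
# S16 / GAUSS (owner helper12; reports to helper24): the quaternary quadratic Gauss sum.

Interface theorems (statements FROZEN):
* `Fermat.Agent.S16.Gauss.gauss_zmod` (`ZModForm.lean`) — finite-field form;
* `Fermat.Agent.S16.Gauss.gauss_int`  (`IntForm.lean`)  — integer form for the Hecke trick
  (`∑_g e((b Q(g) + yᵀg)/d) = e(m Q♯(y)/d) · d²` when `b p m ≡ -1 mod d`; `G₀ = d²` is `y = 0`).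
* `Fermat.Agent.S16.Gauss.gauss_statement` (`Statement.lean`) — `TH.GaussStatement p A A'` as consumed by
  the Hecke trick (`HeckeTrick/Defs.lean`), from `A` symmetric, `A'` symmetric, even diagonals,
  `A * A' = p • 1`, `det A = p ^ 2`.
Leaves: `OneDim.prod_quad_gauss`, `Diag.exists_diag`, `GZero.sum_quad_eq`.
-/
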